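import Mathlib

/-!
# `2 × 2` matrices: eigenvectors, Burnside, Clifford (helper637)

Pure linear algebra over a field `K`, Mathlib-only.  Used for the pieces SPAN, REG, IRR of
S56/P3.

* `Par v w` : `w ∈ K v`;  `Eig M v` : `M v ∈ K v`.
* `par_or_par_of_eig` : a non-scalar matrix has at most two eigenlines.
* `exists_eig_of_nilpotent` : `X ≠ 0` traceless with `det X = 0`: every `s` with `tr (X s) = 0`
  preserves the line `ker X`.
* `commute_of_trace_orth` : `X` traceless with `det X ≠ 0`: matrices of a multiplicatively closed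
  set orthogonal to `X` commute.
* `exists_common_eig_of_commute` : a commuting family over an algebraically closed field has a
  common eigenvector.
* `burnside` : a multiplicatively closed set `S ∋ 1` orthogonal to some `X ≠ 0` has a common
  eigenvector (`K` algebraically closed, `2 ≠ 0`).
* `clifford` : a group acting through `R : Γ →* M₂(K)` without common eigenvector, and without
  common eigenvector for any subgroup of index `2`, cannot permute a non-empty set of nonzero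
  eigenvectors of a non-scalar matrix.
-/

set_option autoImplicit false

namespace Fermat.Agent.S56.P3.H637

open Matrix

variable {K : Type*} [Field K]

/-- `w` is a multiple of `v`. -/
def Par (v w : Fin 2 → K) : Prop := ∃ c : K, w = c • v

/-- `v` spans an `M`-stable line (if `v ≠ 0`). -/
def Eig (M : Matrix (Fin 2) (Fin 2) K) (v : Fin 2 → K) : Prop := Par v (M *ᵥ v)

omit [Field K] in
theorem vec_ext {v w : Fin 2 → K} (h0 : v 0 = w 0) (h1 : v 1 = w 1) : v = w := by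
  funext i
  fin_cases i
  · exact h0
  · exact h1

theorem vec_ne_zero_iff {v : Fin 2 → K} : v ≠ 0 ↔ v 0 ≠ 0 ∨ v 1 ≠ 0 := by
  constructor
  · intro h
    by_contra hcon
    push Not at hcon
    exact h (vec_ext hcon.1 hcon.2)
  · rintro (h | h) rfl
    · exact h rfl
    · exact h rfl

theorem mulVec_zero' (M : Matrix (Fin 2) (Fin 2) K) (v : Fin 2 → K) :
    (M *ᵥ v) 0 = M 0 0 * v 0 + M 0 1 * v 1 := by
  simp [Matrix.mulVec, dotProduct, Fin.sum_univ_two]

theorem mulVec_one' (M : Matrix (Fin 2) (Fin 2) K) (v : Fin 2 → K) :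
    (M *ᵥ v) 1 = M 1 0 * v 0 + M 1 1 * v 1 := by
  simp [Matrix.mulVec, dotProduct, Fin.sum_univ_two]

theorem par_of_det {v w : Fin 2 → K} (hv : v ≠ 0) (h : v 0 * w 1 = v 1 * w 0) : Par v w := by
  rcases vec_ne_zero_iff.mp hv with h0 | h1
  · refine ⟨w 0 / v 0, vec_ext ?_ ?_⟩
    · simp only [Pi.smul_apply, smul_eq_mul]; field_simp
    · simp only [Pi.smul_apply, smul_eq_mul]; field_simp; linear_combination h
  · refine ⟨w 1 / v 1, vec_ext ?_ ?_⟩
    · simp only [Pi.smul_apply, smul_eq_mul]; field_simp; linear_combination -h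
    · simp only [Pi.smul_apply, smul_eq_mul]; field_simp

theorem det_of_par {v w : Fin 2 → K} (h : Par v w) : v 0 * w 1 = v 1 * w 0 := by
  obtain ⟨c, rfl⟩ := h
  simp only [Pi.smul_apply, smul_eq_mul]
  ring

theorem par_iff_det {v w : Fin 2 → K} (hv : v ≠ 0) : Par v w ↔ v 0 * w 1 = v 1 * w 0 :=
  ⟨det_of_par, par_of_det hv⟩

theorem par_self (v : Fin 2 → K) : Par v v := ⟨1, (one_smul _ _).symm⟩

theorem Par.symm {v w : Fin 2 → K} (h : Par v w) (hw : w ≠ 0) : Par w v := by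
  obtain ⟨c, rfl⟩ := h
  have hc : c ≠ 0 := by
    rintro rfl
    exact hw (zero_smul _ _)
  exact ⟨c⁻¹, by rw [smul_smul, inv_mul_cancel₀ hc, one_smul]⟩

theorem Par.trans {u v w : Fin 2 → K} (h1 : Par u v) (h2 : Par v w) : Par u w := by
  obtain ⟨c, rfl⟩ := h1
  obtain ⟨d, rfl⟩ := h2
  exact ⟨d * c, by rw [smul_smul]⟩

theorem Par.mulVec {v w : Fin 2 → K} (h : Par v w) (M : Matrix (Fin 2) (Fin 2) K) :
    Par (M *ᵥ v) (M *ᵥ w) := by
  obtain ⟨c, rfl⟩ := h
  exact ⟨c, Matrix.mulVec_smul _ _ _⟩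

theorem eig_one (v : Fin 2 → K) : Eig (1 : Matrix (Fin 2) (Fin 2) K) v :=
  ⟨1, by rw [Matrix.one_mulVec, one_smul]⟩

theorem Eig.mul {M N : Matrix (Fin 2) (Fin 2) K} {v : Fin 2 → K} (hM : Eig M v)
    (hN : Eig N v) : Eig (M * N) v := by
  obtain ⟨a, ha⟩ := hM
  obtain ⟨b, hb⟩ := hN
  exact ⟨b * a, by rw [← Matrix.mulVec_mulVec, hb, Matrix.mulVec_smul, ha, smul_smul]⟩

theorem Eig.smul {M : Matrix (Fin 2) (Fin 2) K} {v : Fin 2 → K} (hM : Eig M v) (c : K) :
    Eig (c • M) v := by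
  obtain ⟨a, ha⟩ := hM
  exact ⟨c * a, by rw [Matrix.smul_mulVec, ha, smul_smul]⟩

theorem Eig.add {M N : Matrix (Fin 2) (Fin 2) K} {v : Fin 2 → K} (hM : Eig M v)
    (hN : Eig N v) : Eig (M + N) v := by
  obtain ⟨a, ha⟩ := hM
  obtain ⟨b, hb⟩ := hN
  exact ⟨a + b, by rw [Matrix.add_mulVec, ha, hb, add_smul]⟩

theorem Eig.of_par {M : Matrix (Fin 2) (Fin 2) K} {v w : Fin 2 → K} (hM : Eig M v)
    (h : Par v w) : Eig M w := by
  obtain ⟨a, ha⟩ := hM
  obtain ⟨c, rfl⟩ := h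
  exact ⟨a, by rw [Matrix.mulVec_smul, ha, smul_comm]⟩

/-- An invertible matrix maps nonzero vectors to nonzero vectors. -/
theorem mulVec_ne_zero {M N : Matrix (Fin 2) (Fin 2) K} (h : N * M = 1) {v : Fin 2 → K}
    (hv : v ≠ 0) : M *ᵥ v ≠ 0 := by
  intro h0
  apply hv
  calc v = (N * M) *ᵥ v := by rw [h, Matrix.one_mulVec]
    _ = N *ᵥ (M *ᵥ v) := (Matrix.mulVec_mulVec _ _ _).symm
    _ = 0 := by rw [h0, Matrix.mulVec_zero]

/-- Eigenvectors of an invertible matrix are eigenvectors of the inverse. -/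
theorem Eig.inv {M N : Matrix (Fin 2) (Fin 2) K} (h : N * M = 1) {v : Fin 2 → K}
    (hM : Eig M v) : Eig N v := by
  by_cases hv : v = 0
  · subst hv
    exact ⟨0, by simp⟩
  obtain ⟨a, ha⟩ := hM
  have ha0 : a ≠ 0 := by
    rintro rfl
    rw [zero_smul] at ha
    exact mulVec_ne_zero h hv ha
  refine ⟨a⁻¹, ?_⟩
  have h1 : v = a • (N *ᵥ v) := by
    calc v = (N * M) *ᵥ v := by rw [h, Matrix.one_mulVec]
      _ = N *ᵥ (M *ᵥ v) := (Matrix.mulVec_mulVec _ _ _).symm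
      _ = a • (N *ᵥ v) := by rw [ha, Matrix.mulVec_smul]
  calc N *ᵥ v = a⁻¹ • (a • (N *ᵥ v)) := by rw [smul_smul, inv_mul_cancel₀ ha0, one_smul]
    _ = a⁻¹ • v := by rw [← h1]

/-- The matrix `M` is scalar. -/
def IsScalar (M : Matrix (Fin 2) (Fin 2) K) : Prop := ∃ c : K, M = c • (1 : Matrix (Fin 2) (Fin 2) K)

theorem isScalar_iff (M : Matrix (Fin 2) (Fin 2) K) :
    IsScalar M ↔ M 0 1 = 0 ∧ M 1 0 = 0 ∧ M 0 0 = M 1 1 := by
  constructor
  · rintro ⟨c, rfl⟩
    simp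
  · rintro ⟨h1, h2, h3⟩
    refine ⟨M 0 0, ?_⟩
    ext i j
    fin_cases i <;> fin_cases j <;> simp [h1, h2, h3]

theorem IsScalar.eig {M : Matrix (Fin 2) (Fin 2) K} (h : IsScalar M) (v : Fin 2 → K) :
    Eig M v := by
  obtain ⟨c, rfl⟩ := h
  exact ⟨c, by rw [Matrix.smul_mulVec, Matrix.one_mulVec]⟩

/-- Coordinates with respect to two non-parallel vectors. -/
theorem exists_coord {v₀ v₁ : Fin 2 → K} (hv₀ : v₀ ≠ 0) (h : ¬ Par v₀ v₁) (u : Fin 2 → K) :
    ∃ α β : K, u = α • v₀ + β • v₁ := by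
  have hD : v₀ 0 * v₁ 1 - v₀ 1 * v₁ 0 ≠ 0 := by
    intro hD
    exact h (par_of_det hv₀ (by linear_combination hD))
  refine ⟨(u 0 * v₁ 1 - u 1 * v₁ 0) / (v₀ 0 * v₁ 1 - v₀ 1 * v₁ 0),
    (v₀ 0 * u 1 - v₀ 1 * u 0) / (v₀ 0 * v₁ 1 - v₀ 1 * v₁ 0), vec_ext ?_ ?_⟩
  · simp only [Pi.add_apply, Pi.smul_apply, smul_eq_mul]
    rw [div_mul_eq_mul_div, div_mul_eq_mul_div, ← add_div, eq_div_iff hD]
    ring
  · simp only [Pi.add_apply, Pi.smul_apply, smul_eq_mul]
    rw [div_mul_eq_mul_div, div_mul_eq_mul_div, ← add_div, eq_div_iff hD]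
    ring

theorem eq_zero_of_coord {v₀ v₁ : Fin 2 → K} (hv₀ : v₀ ≠ 0) (h : ¬ Par v₀ v₁) {α β : K}
    (hz : α • v₀ + β • v₁ = 0) : α = 0 ∧ β = 0 := by
  have hD : v₀ 0 * v₁ 1 - v₀ 1 * v₁ 0 ≠ 0 := by
    intro hD
    exact h (par_of_det hv₀ (by linear_combination hD))
  have h0 := congrFun hz 0
  have h1 := congrFun hz 1
  simp only [Pi.add_apply, Pi.smul_apply, smul_eq_mul, Pi.zero_apply] at h0 h1
  constructor
  · have : α * (v₀ 0 * v₁ 1 - v₀ 1 * v₁ 0) = 0 := by linear_combination v₁ 1 * h0 - v₁ 0 * h1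
    exact (mul_eq_zero.mp this).resolve_right hD
  · have : β * (v₀ 0 * v₁ 1 - v₀ 1 * v₁ 0) = 0 := by linear_combination v₀ 0 * h1 - v₀ 1 * h0
    exact (mul_eq_zero.mp this).resolve_right hD

/-- A matrix which is scalar on two non-parallel vectors, with the same eigenvalue, is scalar. -/
theorem isScalar_of_eq {M : Matrix (Fin 2) (Fin 2) K} {v₀ v₁ : Fin 2 → K} (hv₀ : v₀ ≠ 0)
    (h : ¬ Par v₀ v₁) {c : K} (h₀ : M *ᵥ v₀ = c • v₀) (h₁ : M *ᵥ v₁ = c • v₁) : IsScalar M := by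
  refine ⟨c, ?_⟩
  have key : ∀ u : Fin 2 → K, M *ᵥ u = c • u := by
    intro u
    obtain ⟨α, β, rfl⟩ := exists_coord hv₀ h u
    rw [Matrix.mulVec_add, Matrix.mulVec_smul, Matrix.mulVec_smul, h₀, h₁, smul_add,
      smul_comm c α, smul_comm c β]
  ext i j
  have := congrFun (key (Pi.single j 1)) i
  simpa [Matrix.mulVec_single, Pi.single_apply, Matrix.one_apply, eq_comm] using this

/-- **A non-scalar matrix has at most two eigenlines.** -/
theorem par_or_par_of_eig {M : Matrix (Fin 2) (Fin 2) K} (hM : ¬ IsScalar M)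
    {v₀ v₁ u : Fin 2 → K} (hv₀ : v₀ ≠ 0) (h : ¬ Par v₀ v₁) (h₀ : Eig M v₀) (h₁ : Eig M v₁)
    (hu : Eig M u) : Par v₀ u ∨ Par v₁ u := by
  obtain ⟨a₀, ha₀⟩ := h₀
  obtain ⟨a₁, ha₁⟩ := h₁
  obtain ⟨c, hc⟩ := hu
  obtain ⟨α, β, rfl⟩ := exists_coord hv₀ h u
  rw [Matrix.mulVec_add, Matrix.mulVec_smul, Matrix.mulVec_smul, ha₀, ha₁] at hc
  have hz : (α * (a₀ - c)) • v₀ + (β * (a₁ - c)) • v₁ = 0 := by
    have : (α * (a₀ - c)) • v₀ + (β * (a₁ - c)) • v₁
        = (α • a₀ • v₀ + β • a₁ • v₁) - c • (α • v₀ + β • v₁) := by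
      simp only [smul_add, smul_smul, mul_sub, sub_smul]
      rw [mul_comm c α, mul_comm c β]
      abel
    rw [this, hc, sub_self]
  obtain ⟨hα, hβ⟩ := eq_zero_of_coord hv₀ h hz
  rcases mul_eq_zero.mp hα with hα | hα
  · right
    exact ⟨β, by rw [hα, zero_smul, zero_add]⟩
  rcases mul_eq_zero.mp hβ with hβ | hβ
  · left
    exact ⟨α, by rw [hβ, zero_smul, add_zero]⟩
  exfalso
  apply hM
  have e₀ : a₀ = c := by linear_combination hα
  have e₁ : a₁ = c := by linear_combination hβ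
  subst e₀
  subst e₁
  exact isScalar_of_eq hv₀ h ha₀ ha₁

/-! ### Burnside for `2 × 2` matrices -/

theorem trace_mul_fin_two (X s : Matrix (Fin 2) (Fin 2) K) :
    (X * s).trace = X 0 0 * s 0 0 + X 0 1 * s 1 0 + X 1 0 * s 0 1 + X 1 1 * s 1 1 := by
  simp [Matrix.trace_fin_two, Matrix.mul_apply, Fin.sum_univ_two]
  ring

theorem mat_ne_zero_iff {X : Matrix (Fin 2) (Fin 2) K} :
    X ≠ 0 ↔ X 0 0 ≠ 0 ∨ X 0 1 ≠ 0 ∨ X 1 0 ≠ 0 ∨ X 1 1 ≠ 0 := by
  constructor
  · intro h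
    by_contra hcon
    push Not at hcon
    apply h
    ext i j
    fin_cases i <;> fin_cases j <;> simp [hcon.1, hcon.2.1, hcon.2.2.1, hcon.2.2.2]
  · rintro h rfl
    simp at h

/-- `X ≠ 0` traceless and singular: every `s` orthogonal to `X` preserves the line `ker X`. -/
theorem exists_eig_of_nilpotent {X : Matrix (Fin 2) (Fin 2) K} (hX : X ≠ 0)
    (htr : X.trace = 0) (hdet : X.det = 0) :
    ∃ v : Fin 2 → K, v ≠ 0 ∧ X *ᵥ v = 0 ∧
      ∀ s : Matrix (Fin 2) (Fin 2) K, (X * s).trace = 0 → Eig s v := by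
  rw [Matrix.trace_fin_two] at htr
  rw [Matrix.det_fin_two] at hdet
  by_cases hac : X 0 0 = 0 ∧ X 1 0 = 0
  · -- `v = (b, -a)`
    have hb : X 0 1 ≠ 0 := by
      rcases mat_ne_zero_iff.mp hX with h | h | h | h
      · exact absurd hac.1 h
      · exact h
      · exact absurd hac.2 h
      · exfalso
        apply h
        linear_combination htr - hac.1
    refine ⟨![X 0 1, -X 0 0], ?_, ?_, ?_⟩
    · intro h
      exact hb (by simpa using congrFun h 0)
    · refine vec_ext ?_ ?_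
      · rw [mulVec_zero']
        simp
        ring
      · rw [mulVec_one']
        simp
        linear_combination -hdet
    · intro s hs
      rw [trace_mul_fin_two] at hs
      apply par_of_det
      · intro h
        exact hb (by simpa using congrFun h 0)
      · rw [mulVec_zero', mulVec_one']
        simp only [Matrix.cons_val_zero, Matrix.cons_val_one]
        linear_combination X 0 1 * hs - (s 0 1 * X 0 0 + X 0 1 * s 1 1) * htr + s 0 1 * hdet
  · -- `v = (a, c)`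
    have hv : (![X 0 0, X 1 0] : Fin 2 → K) ≠ 0 := by
      intro h
      apply hac
      exact ⟨by simpa using congrFun h 0, by simpa using congrFun h 1⟩
    refine ⟨![X 0 0, X 1 0], hv, ?_, ?_⟩
    · refine vec_ext ?_ ?_
      · rw [mulVec_zero']
        simp
        linear_combination X 0 0 * htr - hdet
      · rw [mulVec_one']
        simp
        linear_combination X 1 0 * htr
    · intro s hs
      rw [trace_mul_fin_two] at hs
      apply par_of_det hv
      rw [mulVec_zero', mulVec_one']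
      simp only [Matrix.cons_val_zero, Matrix.cons_val_one]
      linear_combination (-X 1 0) * hs + (s 1 0 * X 0 0 + X 1 0 * s 1 1) * htr - s 1 0 * hdet

/-- `X` traceless and invertible (`2 ≠ 0`): two matrices `Y`, `Z` such that `Y`, `Z`, `YZ`, `ZY`
are orthogonal to `X` commute. -/
theorem commute_of_trace_orth (h2 : (2 : K) ≠ 0) {X : Matrix (Fin 2) (Fin 2) K}
    (htr : X.trace = 0) (hdet : X.det ≠ 0) {Y Z : Matrix (Fin 2) (Fin 2) K}
    (hY : (X * Y).trace = 0) (hZ : (X * Z).trace = 0) (hYZ : (X * (Y * Z)).trace = 0)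
    (hZY : (X * (Z * Y)).trace = 0) : Y * Z = Z * Y := by
  rw [Matrix.trace_fin_two] at htr
  rw [Matrix.det_fin_two] at hdet
  have hx : X 1 1 = -X 0 0 := by linear_combination htr
  rw [trace_mul_fin_two, hx] at hY hZ hYZ hZY
  rw [hx] at hdet
  have hD : 2 * (X 0 0 * X 0 0 + X 0 1 * X 1 0) ≠ 0 := by
    refine mul_ne_zero h2 ?_
    intro h
    apply hdet
    linear_combination -h
  simp only [Matrix.mul_apply, Fin.sum_univ_two] at hYZ hZY
  have e00 : (Y * Z) 0 0 = (Z * Y) 0 0 := by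
    apply mul_left_cancel₀ hD
    simp only [Matrix.mul_apply, Fin.sum_univ_two]
    linear_combination X 0 0 * (hYZ - hZY) - X 0 1 * (Y 1 0 * hZ - Z 1 0 * hY)
      + X 1 0 * (Y 0 1 * hZ - Z 0 1 * hY)
  have e10 : (Y * Z) 1 0 = (Z * Y) 1 0 := by
    apply mul_left_cancel₀ hD
    simp only [Matrix.mul_apply, Fin.sum_univ_two]
    linear_combination X 1 0 * (hYZ - hZY) + 2 * X 0 0 * (Y 1 0 * hZ - Z 1 0 * hY)
      - X 1 0 * ((Y 0 0 - Y 1 1) * hZ - (Z 0 0 - Z 1 1) * hY)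
  have e01 : (Y * Z) 0 1 = (Z * Y) 0 1 := by
    apply mul_left_cancel₀ hD
    simp only [Matrix.mul_apply, Fin.sum_univ_two]
    linear_combination X 0 1 * (hYZ - hZY) - 2 * X 0 0 * (Y 0 1 * hZ - Z 0 1 * hY)
      + X 0 1 * ((Y 0 0 - Y 1 1) * hZ - (Z 0 0 - Z 1 1) * hY)
  have e11 : (Y * Z) 1 1 = (Z * Y) 1 1 := by
    have : (Y * Z) 1 1 - (Z * Y) 1 1 = -((Y * Z) 0 0 - (Z * Y) 0 0) := by
      simp only [Matrix.mul_apply, Fin.sum_univ_two]
      ring
    rw [e00, sub_self, neg_zero, sub_eq_zero] at this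
    exact this
  ext i j
  fin_cases i <;> fin_cases j
  · exact e00
  · exact e01
  · exact e10
  · exact e11

/-- Over an algebraically closed field every matrix has an eigenvector. -/
theorem exists_eig [IsAlgClosed K] (M : Matrix (Fin 2) (Fin 2) K) :
    ∃ (v : Fin 2 → K) (c : K), v ≠ 0 ∧ M *ᵥ v = c • v := by
  obtain ⟨c, hc⟩ := Module.End.exists_eigenvalue (Matrix.toLin' M)
  obtain ⟨v, hv⟩ := hc.exists_hasEigenvector
  refine ⟨v, c, hv.2, ?_⟩
  have := hv.apply_eq_smul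
  rwa [Matrix.toLin'_apply] at this

/-- A commuting family over an algebraically closed field has a common eigenvector. -/
theorem exists_common_eig_of_commute [IsAlgClosed K] (S : Set (Matrix (Fin 2) (Fin 2) K))
    (hS : ∀ s ∈ S, ∀ t ∈ S, s * t = t * s) :
    ∃ v : Fin 2 → K, v ≠ 0 ∧ ∀ s ∈ S, Eig s v := by
  by_cases hsc : ∀ s ∈ S, IsScalar s
  · refine ⟨![1, 0], ?_, fun s hs => (hsc s hs).eig _⟩
    intro h
    have := congrFun h 0
    simp at this
  · push Not at hsc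
    obtain ⟨s₀, hs₀, hns⟩ := hsc
    obtain ⟨v, c, hv, hvc⟩ := exists_eig s₀
    refine ⟨v, hv, fun t ht => ?_⟩
    by_contra hpar
    apply hns
    refine isScalar_of_eq hv hpar hvc ?_
    rw [Matrix.mulVec_mulVec, hS s₀ hs₀ t ht, ← Matrix.mulVec_mulVec, hvc, Matrix.mulVec_smul]

/-- **Burnside for `2 × 2` matrices**: a multiplicatively closed set `S ∋ 1` of matrices which
is orthogonal (for the trace form) to some `X ≠ 0` has a common eigenvector. -/
theorem burnside [IsAlgClosed K] (h2 : (2 : K) ≠ 0) (S : Set (Matrix (Fin 2) (Fin 2) K))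
    (h1 : (1 : Matrix (Fin 2) (Fin 2) K) ∈ S) (hmul : ∀ s ∈ S, ∀ t ∈ S, s * t ∈ S)
    {X : Matrix (Fin 2) (Fin 2) K} (hX : X ≠ 0) (horth : ∀ s ∈ S, (X * s).trace = 0) :
    ∃ v : Fin 2 → K, v ≠ 0 ∧ ∀ s ∈ S, Eig s v := by
  have htr : X.trace = 0 := by simpa using horth 1 h1
  by_cases hdet : X.det = 0
  · obtain ⟨v, hv, -, h⟩ := exists_eig_of_nilpotent hX htr hdet
    exact ⟨v, hv, fun s hs => h s (horth s hs)⟩
  · exact exists_common_eig_of_commute S fun s hs t ht =>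
      commute_of_trace_orth h2 htr hdet (horth s hs) (horth t ht)
        (horth _ (hmul s hs t ht)) (horth _ (hmul t ht s hs))

/-! ### Clifford -/

section Clifford

variable {Γ : Type*} [Group Γ] (R : Γ →* Matrix (Fin 2) (Fin 2) K)

theorem R_inv_mul (g : Γ) : R g⁻¹ * R g = 1 := by
  rw [← map_mul, inv_mul_cancel, map_one]

theorem R_mul_inv (g : Γ) : R g * R g⁻¹ = 1 := by
  rw [← map_mul, mul_inv_cancel, map_one]

theorem R_mulVec_ne_zero (g : Γ) {v : Fin 2 → K} (hv : v ≠ 0) : R g *ᵥ v ≠ 0 :=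
  mulVec_ne_zero (R_inv_mul R g) hv

theorem R_mulVec_injective (g : Γ) {v w : Fin 2 → K} (h : R g *ᵥ v = R g *ᵥ w) : v = w := by
  have := congrArg (fun u => R g⁻¹ *ᵥ u) h
  simpa only [Matrix.mulVec_mulVec, R_inv_mul, Matrix.one_mulVec] using this

/-- The stabiliser of the line `K v`. -/
def stab (v : Fin 2 → K) : Subgroup Γ where
  carrier := {g | Eig (R g) v}
  mul_mem' := by
    intro a b ha hb
    show Eig (R (a * b)) v
    rw [map_mul]
    exact Eig.mul ha hb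
  one_mem' := by
    show Eig (R 1) v
    rw [map_one]
    exact eig_one v
  inv_mem' := by
    intro a ha
    exact Eig.inv (R_inv_mul R a) ha

theorem mem_stab {v : Fin 2 → K} {g : Γ} : g ∈ stab R v ↔ Eig (R g) v := Iff.rfl

/-- **Clifford**: if `Γ` has no common eigenvector, and no subgroup of index `2` has one, then
`Γ` cannot permute a non-empty set of nonzero eigenvectors of a non-scalar matrix. -/
theorem clifford
    (hA : ¬ ∃ v : Fin 2 → K, v ≠ 0 ∧ ∀ g, Eig (R g) v)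
    (hB : ∀ G : Subgroup Γ, G.index = 2 → ¬ ∃ v : Fin 2 → K, v ≠ 0 ∧ ∀ g ∈ G, Eig (R g) v)
    {M : Matrix (Fin 2) (Fin 2) K} (hM : ¬ IsScalar M)
    (E : Set (Fin 2 → K)) (hE0 : ∀ v ∈ E, v ≠ 0) (hEM : ∀ v ∈ E, Eig M v)
    (hEΓ : ∀ g, ∀ v ∈ E, R g *ᵥ v ∈ E) : E = ∅ := by
  by_contra hne
  obtain ⟨v₀, hv₀E⟩ := Set.nonempty_iff_ne_empty.mpr hne
  have hv₀ := hE0 v₀ hv₀E
  by_cases hall : ∀ g, g ∈ stab R v₀
  · exact hA ⟨v₀, hv₀, hall⟩
  push Not at hall
  obtain ⟨g₀, hg₀⟩ := hall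
  have hv₁E : R g₀ *ᵥ v₀ ∈ E := hEΓ g₀ v₀ hv₀E
  have hpar : ¬ Par v₀ (R g₀ *ᵥ v₀) := hg₀
  refine hB (stab R v₀) ?_ ⟨v₀, hv₀, fun g hg => hg⟩
  rw [Subgroup.index_eq_two_iff]
  refine ⟨g₀, fun b => ?_⟩
  by_cases hb : b ∈ stab R v₀
  · refine Or.inr ⟨hb, fun hbg => hg₀ ?_⟩
    have := (stab R v₀).mul_mem ((stab R v₀).inv_mem hb) hbg
    rwa [inv_mul_cancel_left] at this
  · refine Or.inl ⟨?_, hb⟩
    show Eig (R (b * g₀)) v₀
    have hw₀E := hEΓ b v₀ hv₀E
    have hw₁E := hEΓ b _ hv₁E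
    have hw₀ : Par (R g₀ *ᵥ v₀) (R b *ᵥ v₀) := by
      rcases par_or_par_of_eig hM hv₀ hpar (hEM _ hv₀E) (hEM _ hv₁E) (hEM _ hw₀E) with h | h
      · exact absurd h hb
      · exact h
    have hgoal : Par v₀ (R b *ᵥ (R g₀ *ᵥ v₀)) := by
      rcases par_or_par_of_eig hM hv₀ hpar (hEM _ hv₀E) (hEM _ hv₁E) (hEM _ hw₁E) with h | h
      · exact h
      · exfalso
        -- both `R b v₀` and `R b v₁` are parallel to `v₁`
        have h' : Par (R b *ᵥ (R g₀ *ᵥ v₀)) (R g₀ *ᵥ v₀) := h.symm (hE0 _ hw₁E)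
        obtain ⟨e, he⟩ := h'.trans hw₀
        rw [← Matrix.mulVec_smul] at he
        have := R_mulVec_injective R b he
        exact hpar (Par.symm (show Par (R g₀ *ᵥ v₀) v₀ from ⟨e, this⟩) hv₀)
    unfold Eig
    rwa [map_mul, ← Matrix.mulVec_mulVec]

end Clifford

end Fermat.Agent.S56.P3.H637
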