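import Fermat.Agent.S56.P3.Spec
import Fermat.Agent.S56.P3.H637.Mat2

/-!
# S56/P3 bridge (helper637): from `TWHyp` to matrices

`V` has a basis `b` (`finrank = 2`); `Rk ρ b : Γ →* M₂(k)` and `RK ρ b K : Γ →* M₂(K)` are the
matrix forms of `ρ` and of its base change.  `TWHyp.absIrr` and `TWHyp.tw` say that there is no
common eigenvector:

* `no_eig_top`        : over `AlgebraicClosure k`, for `Γ`;
* `no_eig_index_two`  : over any field `K ⊇ k`, for every subgroup of index `2`.
-/

set_option autoImplicit false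

noncomputable section

namespace Fermat.Agent.S56.P3.H637

open Matrix TensorProduct Module

variable {k : Type} [Field k] {V : Type} [AddCommGroup V] [Module k V] [Module.Finite k V]
variable {Γ : Type} [Group Γ] (ρ : Γ →* Module.End k V) (b : Basis (Fin 2) k V)

/-- The matrix form of `ρ`. -/
def Rk : Γ →* Matrix (Fin 2) (Fin 2) k :=
  ((LinearMap.toMatrixAlgEquiv b : Module.End k V ≃ₐ[k] Matrix (Fin 2) (Fin 2) k) :
    Module.End k V →* Matrix (Fin 2) (Fin 2) k).comp ρ

theorem Rk_apply (g : Γ) : Rk ρ b g = LinearMap.toMatrix b b (ρ g) := rfl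

variable (K : Type) [Field K] [Algebra k K]

/-- The matrix form of the base change of `ρ` to `K`. -/
def RK : Γ →* Matrix (Fin 2) (Fin 2) K :=
  (RingHom.mapMatrix (m := Fin 2) (algebraMap k K)).toMonoidHom.comp (Rk ρ b)

theorem RK_apply (g : Γ) : RK ρ b K g = (Rk ρ b g).map (algebraMap k K) := rfl

theorem RK_eq_toMatrix (g : Γ) :
    RK ρ b K g = LinearMap.toMatrix (Algebra.TensorProduct.basis K b)
      (Algebra.TensorProduct.basis K b) ((ρ g).baseChange K) := by
  rw [LinearMap.toMatrix_baseChange]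
  rfl

/-- The vector of `K ⊗ V` with coordinates `v`. -/
def vecOf (v : Fin 2 → K) : K ⊗[k] V := (Algebra.TensorProduct.basis K b).equivFun.symm v

theorem vecOf_smul (c : K) (v : Fin 2 → K) : vecOf b K (c • v) = c • vecOf b K v :=
  map_smul _ _ _

theorem vecOf_ne_zero {v : Fin 2 → K} (hv : v ≠ 0) : vecOf b K v ≠ 0 := by
  intro h
  apply hv
  exact (LinearEquiv.map_eq_zero_iff _).mp h

theorem baseChange_vecOf (g : Γ) (v : Fin 2 → K) :
    (ρ g).baseChange K (vecOf b K v) = vecOf b K (RK ρ b K g *ᵥ v) := by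
  apply (Algebra.TensorProduct.basis K b).equivFun.injective
  have h := LinearMap.toMatrix_mulVec_repr (Algebra.TensorProduct.basis K b)
    (Algebra.TensorProduct.basis K b) ((ρ g).baseChange K) (vecOf b K v)
  have e1 : ((Algebra.TensorProduct.basis K b).repr (vecOf b K v) : Fin 2 → K) = v :=
    (Algebra.TensorProduct.basis K b).equivFun.apply_symm_apply v
  rw [e1, ← RK_eq_toMatrix] at h
  have e2 : (Algebra.TensorProduct.basis K b).equivFun (vecOf b K (RK ρ b K g *ᵥ v))
      = RK ρ b K g *ᵥ v :=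
    (Algebra.TensorProduct.basis K b).equivFun.apply_symm_apply _
  rw [e2, h]
  rfl

/-- A common eigenvector of a subset of `Γ` spans a stable line of `K ⊗ V`. -/
theorem stable_line (P : Γ → Prop) {v : Fin 2 → K} (hv : v ≠ 0)
    (h : ∀ g, P g → Eig (RK ρ b K g) v) (hrank : Module.finrank k V = 2) :
    ∃ W : Submodule K (K ⊗[k] V),
      (∀ g, P g → ∀ x ∈ W, (ρ g).baseChange K x ∈ W) ∧ W ≠ ⊥ ∧ W ≠ ⊤ := by
  refine ⟨Submodule.span K {vecOf b K v}, ?_, ?_, ?_⟩
  · intro g hg x hx
    obtain ⟨a, rfl⟩ := Submodule.mem_span_singleton.mp hx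
    obtain ⟨c, hc⟩ := h g hg
    rw [map_smul, baseChange_vecOf, hc, vecOf_smul]
    exact Submodule.smul_mem _ _ (Submodule.smul_mem _ _ (Submodule.mem_span_singleton_self _))
  · intro hbot
    have := Submodule.mem_span_singleton_self (R := K) (vecOf b K v)
    rw [hbot, Submodule.mem_bot] at this
    exact vecOf_ne_zero b K hv this
  · intro htop
    have h1 : Module.finrank K (Submodule.span K {vecOf b K v}) = 1 :=
      finrank_span_singleton (vecOf_ne_zero b K hv)
    rw [htop, finrank_top, Module.finrank_baseChange, hrank] at h1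
    omega

variable {ρ} {p : ℕ}

/-- No common eigenvector over the algebraic closure. -/
theorem no_eig_top (h : TWHyp ρ p) :
    ¬ ∃ v : Fin 2 → AlgebraicClosure k, v ≠ 0 ∧ ∀ g, Eig (RK ρ b (AlgebraicClosure k) g) v := by
  rintro ⟨v, hv, hev⟩
  obtain ⟨W, hW, hbot, htop⟩ :=
    stable_line ρ b (AlgebraicClosure k) (fun _ => True) hv (fun g _ => hev g) h.finrank_eq
  rcases h.absIrr W (fun g x hx => hW g trivial x hx) with h1 | h1
  · exact hbot h1
  · exact htop h1

/-- No common eigenvector for a subgroup of index `2`, over any extension field. -/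
theorem no_eig_index_two (h : TWHyp ρ p) (G : Subgroup Γ) (hG : G.index = 2) :
    ¬ ∃ v : Fin 2 → K, v ≠ 0 ∧ ∀ g ∈ G, Eig (RK ρ b K g) v := by
  rintro ⟨v, hv, hev⟩
  obtain ⟨W, hW, hbot, htop⟩ :=
    stable_line ρ b K (fun g => g ∈ G) hv hev h.finrank_eq
  rcases h.tw K G hG W hW with h1 | h1
  · exact hbot h1
  · exact htop h1

/-- `2 ≠ 0` in `k`. -/
theorem two_ne_zero_of_hyp [Fact p.Prime] (hp2 : p ≠ 2) (h : TWHyp ρ p) : (2 : k) ≠ 0 := by
  intro h2
  have hp : p.Prime := Fact.out
  have hchar : ringChar k = p := CharP.ringChar_of_prime_eq_zero hp h.char_p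
  have hdvd : ringChar k ∣ 2 := ringChar.dvd (by exact_mod_cast h2)
  rw [hchar] at hdvd
  exact hp2 ((Nat.prime_dvd_prime_iff_eq hp Nat.prime_two).mp hdvd)

theorem two_ne_zero_K [Fact p.Prime] (hp2 : p ≠ 2) (h : TWHyp ρ p) : (2 : K) ≠ 0 := by
  have := two_ne_zero_of_hyp hp2 h
  intro h2
  apply this
  apply (algebraMap k K).injective
  rw [map_ofNat, map_zero]
  exact h2

/-! ### Linear functionals on `End V` as matrices -/

/-- Every linear functional on `M₂(k)` is `M ↦ tr (X M)`. -/
theorem exists_matrix_of_functional (f : Matrix (Fin 2) (Fin 2) k →ₗ[k] k) :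
    ∃ X : Matrix (Fin 2) (Fin 2) k, ∀ M, (X * M).trace = f M := by
  refine ⟨Matrix.of fun i j => f (Matrix.single j i 1), fun M => ?_⟩
  have hM : M = M 0 0 • Matrix.single 0 0 (1 : k) + M 0 1 • Matrix.single 0 1 (1 : k)
      + M 1 0 • Matrix.single 1 0 (1 : k) + M 1 1 • Matrix.single 1 1 (1 : k) := by
    ext i j
    fin_cases i <;> fin_cases j <;> simp [Matrix.single]
  rw [trace_mul_fin_two]
  conv_rhs => rw [hM]
  simp only [map_add, map_smul, smul_eq_mul, Matrix.of_apply]
  ring

/-- Every linear functional on `End V` is `A ↦ tr (X · [A])`. -/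
theorem exists_matrix_of_functional_end (f : Module.End k V →ₗ[k] k) :
    ∃ X : Matrix (Fin 2) (Fin 2) k, ∀ A, (X * LinearMap.toMatrix b b A).trace = f A := by
  obtain ⟨X, hX⟩ := exists_matrix_of_functional (f ∘ₗ (Matrix.toLin b b).toLinearMap)
  refine ⟨X, fun A => ?_⟩
  rw [hX]
  simp

theorem trace_map_mul (X M : Matrix (Fin 2) (Fin 2) k) :
    ((X.map (algebraMap k K)) * (M.map (algebraMap k K))).trace
      = algebraMap k K ((X * M).trace) := by
  rw [trace_mul_fin_two, trace_mul_fin_two]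
  simp only [Matrix.map_apply, map_add, map_mul]

theorem map_ne_zero_of_ne_zero {X : Matrix (Fin 2) (Fin 2) k} (hX : X ≠ 0) :
    X.map (algebraMap k K) ≠ 0 := by
  intro h
  apply hX
  ext i j
  have := congrFun (congrFun h i) j
  simp only [Matrix.map_apply, Matrix.zero_apply] at this
  exact (map_eq_zero (algebraMap k K)).mp this

end Fermat.Agent.S56.P3.H637
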