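import Fermat.Agent.S56.P3.H637.Span

/-!
# S56/P3 piece REG (helper637)

`existsRegular : Fermat.Agent.S56.P3.ExistsRegularStatement` — under `TWHyp`, a normal subgroup
`Δ` with cyclic quotient contains an element with two distinct eigenvalues.  UNCONDITIONAL (uses
`spanDelta`); `existsRegular_of_span` takes `SpanDeltaStatement` as a hypothesis.

Proof.  If every `ρ(δ)` has a double eigenvalue, then `tr² = 4 det` on `ρ(Δ)`, which forces
`2 tr(M₁ M₂) = tr M₁ · tr M₂` on `ρ(Δ)`; so `2 M₁ - tr M₁` is trace-orthogonal to `ρ(Δ)`, hence to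
`End V` (SPAN), hence `0`: `ρ(Δ)` is scalar, contradicting SPAN.
-/

set_option autoImplicit false

noncomputable section

namespace Fermat.Agent.S56.P3.H637

open Matrix Module Polynomial

section MatrixLemma

variable {K : Type*} [Field K]

theorem trace_sq_mul (M N : Matrix (Fin 2) (Fin 2) K) :
    (M * M * N).trace = M.trace * (M * N).trace - M.det * N.trace := by
  simp only [Matrix.trace_fin_two, Matrix.det_fin_two, Matrix.mul_apply, Fin.sum_univ_two]
  ring

/-- If `M₁`, `M₂`, `M₁M₂`, `M₁²M₂` are invertible with a double eigenvalue, then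
`2 tr(M₁M₂) = tr M₁ · tr M₂`. -/
theorem two_trace_mul_of_disc (h2 : (2 : K) ≠ 0) {M₁ M₂ : Matrix (Fin 2) (Fin 2) K}
    (d1 : M₁.det ≠ 0) (d2 : M₂.det ≠ 0)
    (h1 : M₁.trace ^ 2 = 4 * M₁.det) (h2' : M₂.trace ^ 2 = 4 * M₂.det)
    (h12 : (M₁ * M₂).trace ^ 2 = 4 * (M₁ * M₂).det)
    (h112 : (M₁ * M₁ * M₂).trace ^ 2 = 4 * (M₁ * M₁ * M₂).det) :
    2 * (M₁ * M₂).trace = M₁.trace * M₂.trace := by
  rw [Matrix.det_mul] at h12
  rw [Matrix.det_mul, Matrix.det_mul, trace_sq_mul] at h112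
  have h4 : (4 : K) ≠ 0 := by
    have : (4 : K) = 2 * 2 := by norm_num
    rw [this]
    exact mul_ne_zero h2 h2
  have ht1 : M₁.trace ≠ 0 := by
    intro h
    rw [h] at h1
    have : 4 * M₁.det = 0 := by rw [← h1]; ring
    rcases mul_eq_zero.mp this with h' | h'
    · exact h4 h'
    · exact d1 h'
  have ht2 : M₂.trace ≠ 0 := by
    intro h
    rw [h] at h2'
    have : 4 * M₂.det = 0 := by rw [← h2']; ring
    rcases mul_eq_zero.mp this with h' | h'
    · exact h4 h'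
    · exact d2 h'
  set t₁ := M₁.trace
  set t₂ := M₂.trace
  set e₁ := M₁.det
  set e₂ := M₂.det
  set τ := (M₁ * M₂).trace
  have hi : (2 * τ - t₁ * t₂) * ((2 * τ - t₁ * t₂) + 2 * (t₁ * t₂)) = 0 := by
    linear_combination 4 * h12 - t₂ ^ 2 * h1 - 4 * e₁ * h2'
  have hii : (2 * τ - t₁ * t₂) * ((2 * τ - t₁ * t₂) + t₁ * t₂) = 0 := by
    apply mul_left_cancel₀ d1
    rw [mul_zero]
    linear_combination h112 - τ ^ 2 * h1 - e₁ ^ 2 * h2'
  have hu : (2 * τ - t₁ * t₂) * (t₁ * t₂) = 0 := by linear_combination hi - hii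
  rcases mul_eq_zero.mp hu with h | h
  · linear_combination h
  · exact absurd h (mul_ne_zero ht1 ht2)

end MatrixLemma

variable {k : Type} [Field k] {V : Type} [AddCommGroup V] [Module k V] [Module.Finite k V]
variable {Γ : Type} [Group Γ] {ρ : Γ →* Module.End k V} {p : ℕ}

/-- A non-regular element with eigenvalues in `k` has `tr² = 4 det`. -/
theorem disc_eq_zero_of_not_regular (h : TWHyp ρ p) (b : Basis (Fin 2) k V) (σ : Γ)
    (hσ : ¬ IsRegular ρ σ) : (Rk ρ b σ).trace ^ 2 = 4 * (Rk ρ b σ).det := by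
  obtain ⟨α, β, hαβ⟩ := h.split σ
  have hab : α = β := by
    by_contra hne
    exact hσ ⟨α, β, hne, hαβ⟩
  subst hab
  have hc : (Rk ρ b σ).charpoly = (X - C α) * (X - C α) := by
    rw [Rk_apply, LinearMap.charpoly_toMatrix]
    exact hαβ
  rw [Matrix.charpoly_fin_two] at hc
  have e0 := congrArg (Polynomial.eval 0) hc
  have e1 := congrArg (Polynomial.eval 1) hc
  simp only [eval_add, eval_sub, eval_mul, eval_pow, eval_X, eval_C] at e0 e1
  have ht : (Rk ρ b σ).trace = 2 * α := by linear_combination e0 - e1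
  have hd : (Rk ρ b σ).det = α * α := by linear_combination e0
  rw [ht, hd]
  ring

theorem det_Rk_ne_zero (b : Basis (Fin 2) k V) (σ : Γ) : (Rk ρ b σ).det ≠ 0 :=
  Matrix.det_ne_zero_of_right_inverse (R_mul_inv (Rk ρ b) σ)

/-- If `span ρ(Δ) = End V`, a matrix trace-orthogonal to `ρ(Δ)` vanishes. -/
theorem eq_zero_of_orth (b : Basis (Fin 2) k V) (Δ : Subgroup Γ)
    (hspan : Submodule.span k (Set.range fun δ : Δ => ρ (δ : Γ)) = ⊤)
    (X : Matrix (Fin 2) (Fin 2) k) (hX : ∀ δ ∈ Δ, (X * Rk ρ b δ).trace = 0) : X = 0 := by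
  let φ : Module.End k V →ₗ[k] k :=
    (Matrix.traceLinearMap (Fin 2) k k ∘ₗ LinearMap.mulLeft k X) ∘ₗ
      (LinearMap.toMatrix b b).toLinearMap
  have hφ : ∀ A, φ A = (X * LinearMap.toMatrix b b A).trace := fun A => rfl
  have hker : Submodule.span k (Set.range fun δ : Δ => ρ (δ : Γ)) ≤ LinearMap.ker φ := by
    rw [Submodule.span_le]
    rintro _ ⟨δ, rfl⟩
    rw [SetLike.mem_coe, LinearMap.mem_ker, hφ]
    exact hX δ δ.2
  rw [hspan] at hker
  have hall : ∀ M : Matrix (Fin 2) (Fin 2) k, (X * M).trace = 0 := by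
    intro M
    have := hker (Submodule.mem_top (x := Matrix.toLin b b M))
    rw [LinearMap.mem_ker, hφ, LinearMap.toMatrix_toLin] at this
    exact this
  ext i j
  have := hall (Matrix.single j i 1)
  rw [trace_mul_fin_two] at this
  fin_cases i <;> fin_cases j <;> simpa [Matrix.single] using this

/-- **REG** from SPAN. -/
theorem existsRegular_of_span (hspanS : SpanDeltaStatement) : ExistsRegularStatement := by
  intro k _ V _ _ _ Γ _ ρ p _ hp2 h Δ _ hcyc
  by_contra hcon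
  push Not at hcon
  have hspan := hspanS k V Γ ρ p hp2 h Δ hcyc
  let b : Basis (Fin 2) k V := Module.finBasisOfFinrankEq k V h.finrank_eq
  have h2 : (2 : k) ≠ 0 := two_ne_zero_of_hyp hp2 h
  have hdisc : ∀ δ ∈ Δ, (Rk ρ b δ).trace ^ 2 = 4 * (Rk ρ b δ).det := fun δ hδ =>
    disc_eq_zero_of_not_regular h b δ (hcon δ hδ)
  have hmul : ∀ δ₁ ∈ Δ, ∀ δ₂ ∈ Δ,
      2 * (Rk ρ b δ₁ * Rk ρ b δ₂).trace = (Rk ρ b δ₁).trace * (Rk ρ b δ₂).trace := by
    intro δ₁ h₁ δ₂ h₂
    refine two_trace_mul_of_disc h2 (det_Rk_ne_zero b δ₁) (det_Rk_ne_zero b δ₂)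
      (hdisc δ₁ h₁) (hdisc δ₂ h₂) ?_ ?_
    · rw [← map_mul]
      exact hdisc _ (Δ.mul_mem h₁ h₂)
    · rw [← map_mul, ← map_mul]
      exact hdisc _ (Δ.mul_mem (Δ.mul_mem h₁ h₁) h₂)
  -- every `ρ(δ)` is scalar
  have hscal : ∀ δ ∈ Δ, 2 • Rk ρ b δ - (Rk ρ b δ).trace • (1 : Matrix (Fin 2) (Fin 2) k) = 0 := by
    intro δ₁ h₁
    apply eq_zero_of_orth b Δ hspan
    intro δ₂ h₂
    rw [sub_mul, Matrix.trace_sub, Matrix.smul_mul, Matrix.smul_mul, Matrix.one_mul,
      Matrix.trace_smul, Matrix.trace_smul, smul_eq_mul, nsmul_eq_mul]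
    linear_combination hmul δ₁ h₁ δ₂ h₂
  -- hence the entry `(0,1)` vanishes on `ρ(Δ)`: contradiction with SPAN
  have h01 : (Matrix.single 1 0 (1 : k) : Matrix (Fin 2) (Fin 2) k) = 0 := by
    apply eq_zero_of_orth b Δ hspan
    intro δ hδ
    have := congrFun (congrFun (hscal δ hδ) 0) 1
    simp only [Matrix.sub_apply, Matrix.smul_apply, Matrix.one_apply, Matrix.zero_apply] at this
    have hz : Rk ρ b δ 0 1 = 0 := by
      have h' : (2 : k) * Rk ρ b δ 0 1 = 0 := by
        simpa using this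
      exact (mul_eq_zero.mp h').resolve_left h2
    rw [trace_mul_fin_two]
    simp [Matrix.single, hz]
  have := congrFun (congrFun h01 1) 0
  simp [Matrix.single] at this

/-- **REG**, unconditional. -/
theorem existsRegular : ExistsRegularStatement := existsRegular_of_span spanDelta

end Fermat.Agent.S56.P3.H637
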