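import Fermat.Agent.S56.P3.H637.Bridge

/-!
# S56/P3 piece SPAN (helper637)

`spanDelta : Fermat.Agent.S56.P3.SpanDeltaStatement` — under `TWHyp`, for `Δ ⊴ Γ` with cyclic
quotient, the `k`-span of `ρ(Δ)` is `End V`.

Proof.  If not, some `X ≠ 0` is trace-orthogonal to `ρ(Δ)`; by Burnside (`Mat2.burnside`) `ρ(Δ)`
has a common eigenvector over `k̄`.  If `ρ(Δ)` is scalar, an eigenvector of a generator of `Γ/Δ`
is a common eigenvector of `Γ`.  Otherwise Clifford (`Mat2.clifford`) applies to the set of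
common eigenvectors of `ρ(Δ)`, which is permuted by `Γ`.
-/

set_option autoImplicit false

noncomputable section

namespace Fermat.Agent.S56.P3.H637

open Matrix Module

variable {k : Type} [Field k] {V : Type} [AddCommGroup V] [Module k V] [Module.Finite k V]
variable {Γ : Type} [Group Γ] {ρ : Γ →* Module.End k V} {p : ℕ}

/-- The core of SPAN: a normal subgroup with cyclic quotient has no common eigenvector over
`k̄`. -/
theorem no_eig_normal [Fact p.Prime] (h : TWHyp ρ p) (b : Basis (Fin 2) k V)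
    (Δ : Subgroup Γ) [Δ.Normal] (hcyc : IsCyclic (Γ ⧸ Δ)) :
    ¬ ∃ v : Fin 2 → AlgebraicClosure k, v ≠ 0 ∧
      ∀ δ ∈ Δ, Eig (RK ρ b (AlgebraicClosure k) δ) v := by
  rintro ⟨v₀, hv₀, hev⟩
  set R := RK ρ b (AlgebraicClosure k) with hR
  have hA := no_eig_top b h
  have hB := fun G hG => no_eig_index_two b (AlgebraicClosure k) h G hG
  by_cases hsc : ∀ δ ∈ Δ, IsScalar (R δ)
  · -- `ρ(Δ)` scalar: use a generator of `Γ/Δ`
    obtain ⟨x, hx⟩ := hcyc.exists_generator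
    obtain ⟨γ, rfl⟩ := QuotientGroup.mk_surjective x
    obtain ⟨u, c, hu, huc⟩ := exists_eig (R γ)
    apply hA
    refine ⟨u, hu, fun g => ?_⟩
    obtain ⟨n, hn⟩ := Subgroup.mem_zpowers_iff.mp (hx (g : Γ ⧸ Δ))
    have hmem : (γ ^ n)⁻¹ * g ∈ Δ := by
      rw [← QuotientGroup.eq]
      exact_mod_cast hn
    have hγ : γ ∈ stab R u := ⟨c, huc⟩
    have h1 : γ ^ n ∈ stab R u := (stab R u).zpow_mem hγ n
    have h2 : (γ ^ n)⁻¹ * g ∈ stab R u := (hsc _ hmem).eig u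
    have := (stab R u).mul_mem h1 h2
    rwa [mul_inv_cancel_left] at this
  · push Not at hsc
    obtain ⟨δ₀, hδ₀, hns⟩ := hsc
    have hE := clifford R hA hB hns
      {v | v ≠ 0 ∧ ∀ δ ∈ Δ, Eig (R δ) v} (fun v hv => hv.1) (fun v hv => hv.2 δ₀ hδ₀) (by
        rintro g v ⟨hv, hvΔ⟩
        refine ⟨R_mulVec_ne_zero R g hv, fun δ hδ => ?_⟩
        have hconj : g⁻¹ * δ * g ∈ Δ := by
          have := Subgroup.Normal.conj_mem (inferInstance : Δ.Normal) δ hδ g⁻¹
          simpa using this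
        obtain ⟨c, hc⟩ := hvΔ _ hconj
        refine ⟨c, ?_⟩
        have e : R δ * R g = R g * R (g⁻¹ * δ * g) := by
          rw [← map_mul, ← map_mul]
          congr 1
          group
        rw [Matrix.mulVec_mulVec, e, ← Matrix.mulVec_mulVec, hc, Matrix.mulVec_smul])
    have : v₀ ∈ ({v | v ≠ 0 ∧ ∀ δ ∈ Δ, Eig (R δ) v} : Set (Fin 2 → AlgebraicClosure k)) :=
      ⟨hv₀, hev⟩
    rw [hE] at this
    exact this

/-- **SPAN**. -/
theorem spanDelta : SpanDeltaStatement := by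
  intro k _ V _ _ _ Γ _ ρ p _ hp2 h Δ _ hcyc
  by_contra hne
  let b : Basis (Fin 2) k V := Module.finBasisOfFinrankEq k V h.finrank_eq
  obtain ⟨f, hf0, hf⟩ := Submodule.exists_le_ker_of_lt_top _ (lt_top_iff_ne_top.mpr hne)
  obtain ⟨X, hX⟩ := exists_matrix_of_functional_end b f
  have hX0 : X ≠ 0 := by
    rintro rfl
    apply hf0
    ext A
    rw [← hX A]
    simp
  have horth : ∀ δ ∈ Δ, (X * Rk ρ b δ).trace = 0 := by
    intro δ hδ
    rw [Rk_apply, hX]
    exact hf (Submodule.subset_span ⟨⟨δ, hδ⟩, rfl⟩)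
  set K := AlgebraicClosure k
  have h2 : (2 : K) ≠ 0 := two_ne_zero_K K hp2 h
  obtain ⟨v, hv, hev⟩ := burnside h2 (Set.range fun δ : Δ => RK ρ b K (δ : Γ))
    ⟨1, by simp⟩
    (by
      rintro _ ⟨δ, rfl⟩ _ ⟨δ', rfl⟩
      exact ⟨δ * δ', by simp⟩)
    (map_ne_zero_of_ne_zero K hX0)
    (by
      rintro _ ⟨δ, rfl⟩
      show ((X.map (algebraMap k K)) * (RK ρ b K (δ : Γ))).trace = 0
      rw [RK_apply, trace_map_mul, horth δ δ.2, map_zero])
  exact no_eig_normal h b Δ hcyc ⟨v, hv, fun δ hδ => hev _ ⟨⟨δ, hδ⟩, rfl⟩⟩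

end Fermat.Agent.S56.P3.H637
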